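/-
S58 / EC-Frob project, block [EC-G] (good reduction), part 1: the residue field of a valuation
subring `A` of an algebraically closed field `L`.

* `isAlgClosed_residueField`: the residue field of `A` is algebraically closed;
* `charP_residueField`: if `A` lies over the prime `ℓ`, the residue field has characteristic `ℓ`;
* `residue_apply_of_isFrobeniusAt`: a Frobenius element at `A` acts on residues as `z ↦ z ^ q`;
* `residue_apply_of_mem_inertiaSubgroupIn`: inertia elements act trivially on residues;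
* `frobAlgHom`: the `q`-power map of a field of characteristic `q`, as a `ZMod q`-algebra map.

Mathlib + prelude definitions + `S05/Inertia` only.
-/
import Mathlib
import Fermat.Prelude.Def_EllipticCurve_FrobeniusTrace
import Fermat.Agent.S05.Inertia

set_option autoImplicit false

namespace Fermat.Agent.S58.EC.Good.ResidueField

open Polynomial Fermat.Agent.S05.Inertia

section AlgClosed

variable {L : Type*} [Field L] (A : ValuationSubring L)

/-- A root in `L` of a monic polynomial over `↥A` lies in `A`. -/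
theorem mem_of_monic_root {P : (↥A)[X]} (hP : P.Monic) {x : L}
    (hx : (P.map A.subtype).eval x = 0) : x ∈ A := by
  have hint : IsIntegral ↥A x := by
    refine ⟨P, hP, ?_⟩
    have : eval₂ (algebraMap ↥A L) x P = (P.map A.subtype).eval x := by
      rw [eval_map]; rfl
    rw [this, hx]
  obtain ⟨y, hy⟩ := IsIntegrallyClosed.isIntegral_iff.mp hint
  rw [← hy]
  exact y.2

/-- The residue field of a valuation subring of an algebraically closed field is algebraically
closed. -/
theorem isAlgClosed_residueField [IsAlgClosed L] : IsAlgClosed (IsLocalRing.ResidueField ↥A) := by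
  apply IsAlgClosed.of_exists_root
  intro p hmonic hirr
  have hsurj : Function.Surjective (IsLocalRing.residue ↥A) := IsLocalRing.residue_surjective
  obtain ⟨P, hP, hdeg, hPmonic⟩ := lifts_and_degree_eq_and_monic
    ((mem_lifts _).mpr (map_surjective _ hsurj p)) hmonic
  have hdegL : (P.map A.subtype).degree ≠ 0 := by
    rw [degree_map_eq_of_injective A.subtype_injective, hdeg]
    exact (degree_pos_of_irreducible hirr).ne'
  obtain ⟨x, hx⟩ := IsAlgClosed.exists_root (P.map A.subtype) hdegL
  have hxA : x ∈ A := mem_of_monic_root A hPmonic hx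
  refine ⟨IsLocalRing.residue ↥A ⟨x, hxA⟩, ?_⟩
  have h0 : P.eval (⟨x, hxA⟩ : ↥A) = 0 := by
    apply A.subtype_injective
    rw [map_zero, ← eval₂_hom, ← eval_map]
    exact hx
  rw [← hP, eval_map, eval₂_hom, h0, map_zero]

end AlgClosed

section Char

variable {L : Type*} [Field L] (A : ValuationSubring L)

/-- If `A` lies over `ℓ`, then `ℓ` is in the maximal ideal of `A`. -/
theorem natCast_mem_maximalIdeal {ℓ : ℕ} (hA : A.LiesOverPrime ℓ) :
    ((ℓ : ℕ) : ↥A) ∈ IsLocalRing.maximalIdeal ↥A := by
  rw [ValuationSubring.LiesOverPrime] at hA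
  have h : (((ℓ : ℕ) : ↥A) : L) = (ℓ : L) := map_natCast A.subtype ℓ
  rw [← h, ValuationSubring.coe_mem_nonunits_iff] at hA
  exact hA

/-- If `A` lies over the prime `ℓ`, its residue field has characteristic `ℓ`. -/
theorem charP_residueField {ℓ : ℕ} (hℓ : ℓ.Prime) (hA : A.LiesOverPrime ℓ) :
    CharP (IsLocalRing.ResidueField ↥A) ℓ := by
  have h0 : ((ℓ : ℕ) : IsLocalRing.ResidueField ↥A) = 0 := by
    rw [← map_natCast (IsLocalRing.residue ↥A), IsLocalRing.residue_eq_zero_iff]
    exact natCast_mem_maximalIdeal A hA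
  exact (CharP.charP_iff_prime_eq_zero hℓ).mpr h0

/-- A natural number prime to `ℓ` is a unit of a valuation subring lying over `ℓ`. -/
theorem isUnit_natCast_of_not_dvd {ℓ : ℕ} (hℓ : ℓ.Prime) (hA : A.LiesOverPrime ℓ) {n : ℕ}
    (hn : ¬ ℓ ∣ n) : IsUnit ((n : ℕ) : ↥A) := by
  have := charP_residueField A hℓ hA
  by_contra hu
  have hmem : ((n : ℕ) : ↥A) ∈ IsLocalRing.maximalIdeal ↥A :=
    (IsLocalRing.mem_maximalIdeal _).mpr hu
  have h0 : ((n : ℕ) : IsLocalRing.ResidueField ↥A) = 0 := by
    rw [← map_natCast (IsLocalRing.residue ↥A), IsLocalRing.residue_eq_zero_iff]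
    exact hmem
  exact hn ((CharP.cast_eq_zero_iff (IsLocalRing.ResidueField ↥A) ℓ n).mp h0)

end Char

section Galois

variable {K L : Type*} [Field K] [Field L] [Algebra K L] (A : ValuationSubring L)

/-- A Frobenius element at `A` acts on residues as the `q`-power map. -/
theorem residue_apply_of_isFrobeniusAt {σ : L ≃ₐ[K] L} {q : ℕ} (hσ : A.IsFrobeniusAt σ q)
    (a : ↥A) :
    IsLocalRing.residue ↥A ⟨σ a,
        apply_mem_of_mem_decompositionSubgroup A hσ.mem_decompositionSubgroup a.2⟩ =
      (IsLocalRing.residue ↥A a) ^ q := by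
  have h := hσ.smul_residue_eq (IsLocalRing.residue ↥A a)
  rw [← IsLocalRing.ResidueField.residue_smul] at h
  exact h

/-- Inertia elements act trivially on residues. -/
theorem residue_apply_of_mem_inertiaSubgroupIn {τ : L ≃ₐ[K] L} (hτ : τ ∈ A.inertiaSubgroupIn K)
    (a : ↥A) :
    IsLocalRing.residue ↥A ⟨τ a, apply_mem_of_mem_inertiaSubgroupIn A hτ a.2⟩ =
      IsLocalRing.residue ↥A a := by
  have h := apply_sub_mem_nonunits_of_mem_inertiaSubgroupIn A hτ a.2
  rw [← sub_eq_zero, ← map_sub, IsLocalRing.residue_eq_zero_iff,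
    ← ValuationSubring.coe_mem_nonunits_iff]
  exact h

end Galois

section Frob

/-- Two `ZMod ℓ`-algebra endomorphisms which are both the `ℓ`-power map are equal. -/
theorem frob_unique {ℓ : ℕ} {κ : Type*} [CommRing κ] [Algebra (ZMod ℓ) κ]
    {f g : κ →ₐ[ZMod ℓ] κ} (hf : ∀ z, f z = z ^ ℓ) (hg : ∀ z, g z = z ^ ℓ) : f = g :=
  AlgHom.ext fun z => by rw [hf, hg]

/-- The `ℓ`-power map of a `ZMod ℓ`-algebra, as an algebra endomorphism. -/
theorem exists_frobAlgHom (ℓ : ℕ) [Fact ℓ.Prime] (κ : Type*) [CommRing κ] [Algebra (ZMod ℓ) κ] :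
    ∃ f : κ →ₐ[ZMod ℓ] κ, ∀ z, f z = z ^ ℓ := by
  refine ⟨FiniteField.frobeniusAlgHom (ZMod ℓ) κ, fun z => ?_⟩
  rw [FiniteField.frobeniusAlgHom_apply, ZMod.card]

end Frob

end Fermat.Agent.S58.EC.Good.ResidueField
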