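/-
S58 / EC-Frob project, block [EC-G] (good reduction), part 2: the reduction homomorphism of a
Weierstrass curve `W` over `ℤ` at a valuation subring `A` of a field `L ⊇ ℚ` lying over a prime
`ℓ` of good reduction.

`WL := (W.map (Int.castRingHom ℚ))⁄L` (the curve of the prelude's `ModRepIsIrreducible`) reduces
to `Wκ := (W.reductionMod ℓ)⁄κ`, `κ` the residue field of `A` (with any `ZMod ℓ`-algebra
structure), in the sense of `Red.Basic.CurveRed`; for `ℓ ∤ Δ` the reduction map is a group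
homomorphism `redHom : WL.Point →+ Wκ.Point`, injective on `n`-torsion for `ℓ ∤ n`.
-/
import Fermat.Agent.S58.EC.Good.ResidueField
import Fermat.Agent.S58.EC.Red.Kernel
import Fermat.Prelude.Def_FLTPrelim_Modularity

set_option autoImplicit false

namespace Fermat.Agent.S58.EC.Good.Setup

open WeierstrassCurve WeierstrassCurve.Affine
open Fermat.Agent.S58.EC.Red.Basic Fermat.Agent.S58.EC.Red.Add Fermat.Agent.S58.EC.Red.Kernel
open Fermat.Agent.S58.EC.Good.ResidueField

variable (W : WeierstrassCurve ℤ) {L : Type*} [Field L] [Algebra ℚ L] (A : ValuationSubring L)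
  (ℓ : ℕ) [Algebra (ZMod ℓ) (IsLocalRing.ResidueField ↥A)]

/-- The curve over `ℚ` attached to `W`, as in the prelude's `ModRepIsIrreducible`. -/
abbrev WQ : Affine ℚ := W.map (Int.castRingHom ℚ)

/-- The model of `W` over the valuation ring `A`. -/
abbrev WA : WeierstrassCurve ↥A := W.map (Int.castRingHom ↥A)

/-- `WQ⁄L` reduces to `(W.reductionMod ℓ)⁄κ` along the residue map of `A`. -/
theorem curveRed :
    CurveRed A (IsLocalRing.residue ↥A) ((WQ W)⁄L)
      ((W.reductionMod ℓ)⁄(IsLocalRing.ResidueField ↥A)) := by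
  refine ⟨WA W A, ?_, ?_⟩
  · change (W.map (Int.castRingHom ↥A)).map A.subtype =
      (W.map (Int.castRingHom ℚ)).map (algebraMap ℚ L)
    rw [WeierstrassCurve.map_map, WeierstrassCurve.map_map]
    congr 1
    exact Subsingleton.elim _ _
  · change (W.map (Int.castRingHom ↥A)).map (IsLocalRing.residue ↥A) =
      (W.map (Int.castRingHom (ZMod ℓ))).map
        (algebraMap (ZMod ℓ) (IsLocalRing.ResidueField ↥A))
    rw [WeierstrassCurve.map_map, WeierstrassCurve.map_map]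
    congr 1
    exact Subsingleton.elim _ _

variable [Fact ℓ.Prime]

/-- Good reduction: the reduced curve has nonzero discriminant. -/
theorem Δ_red_ne_zero (hgood : ¬ (ℓ : ℤ) ∣ W.Δ) :
    ((W.reductionMod ℓ)⁄(IsLocalRing.ResidueField ↥A)).Δ ≠ 0 := by
  change ((W.map (Int.castRingHom (ZMod ℓ))).map
    (algebraMap (ZMod ℓ) (IsLocalRing.ResidueField ↥A))).Δ ≠ 0
  rw [WeierstrassCurve.map_Δ, WeierstrassCurve.map_Δ]
  intro h
  have h2 := (map_eq_zero_iff _ (algebraMap (ZMod ℓ) (IsLocalRing.ResidueField ↥A)).injective).mp h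
  rw [eq_intCast, ZMod.intCast_zmod_eq_zero_iff_dvd] at h2
  exact hgood h2

variable [DecidableEq L] [DecidableEq (IsLocalRing.ResidueField ↥A)]

/-- At a prime of good reduction every point has nonsingular reduction. -/
theorem inE0 (hgood : ¬ (ℓ : ℤ) ∣ W.Δ) (P : ((WQ W)⁄L).Point) :
    InE0 A (IsLocalRing.residue ↥A) ((WQ W)⁄L)
      ((W.reductionMod ℓ)⁄(IsLocalRing.ResidueField ↥A)) P := by
  have h := E0_eq_top killsMax_residue (curveRed W A ℓ) (Δ_red_ne_zero W A ℓ hgood)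
  have hP : P ∈ E0 killsMax_residue (curveRed W A ℓ) := by
    rw [h]
    trivial
  exact hP

/-- **The reduction homomorphism** at a prime of good reduction. -/
noncomputable def redHom (hgood : ¬ (ℓ : ℤ) ∣ W.Δ) :
    ((WQ W)⁄L).Point →+ ((W.reductionMod ℓ)⁄(IsLocalRing.ResidueField ↥A)).Point where
  toFun P := redFun A (IsLocalRing.residue ↥A) ((WQ W)⁄L)
    ((W.reductionMod ℓ)⁄(IsLocalRing.ResidueField ↥A)) P
  map_zero' := rfl
  map_add' P Q := (redFun_add killsMax_residue (curveRed W A ℓ) (inE0 W A ℓ hgood P)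
    (inE0 W A ℓ hgood Q)).2

theorem redHom_apply (hgood : ¬ (ℓ : ℤ) ∣ W.Δ) (P : ((WQ W)⁄L).Point) :
    redHom W A ℓ hgood P = redFun A (IsLocalRing.residue ↥A) ((WQ W)⁄L)
      ((W.reductionMod ℓ)⁄(IsLocalRing.ResidueField ↥A)) P := rfl

/-- **Injectivity on torsion prime to `ℓ`.** -/
theorem eq_zero_of_redHom_eq_zero (hgood : ¬ (ℓ : ℤ) ∣ W.Δ) (hA : A.LiesOverPrime ℓ) {n : ℕ}
    (hn : ¬ ℓ ∣ n) {P : ((WQ W)⁄L).Point} (hP : n • P = 0) (h0 : redHom W A ℓ hgood P = 0) :
    P = 0 :=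
  eq_zero_of_redFun_eq_zero (curveRed W A ℓ)
    (isUnit_natCast_of_not_dvd A (Fact.out : ℓ.Prime) hA hn) (inE0 W A ℓ hgood P) hP h0

theorem redHom_injOn_torsion (hgood : ¬ (ℓ : ℤ) ∣ W.Δ) (hA : A.LiesOverPrime ℓ) {n : ℕ}
    (hn : ¬ ℓ ∣ n) {P Q : ((WQ W)⁄L).Point} (hP : n • P = 0) (hQ : n • Q = 0)
    (h : redHom W A ℓ hgood P = redHom W A ℓ hgood Q) : P = Q := by
  have h0 : redHom W A ℓ hgood (P - Q) = 0 := by rw [map_sub, h, sub_self]
  have hPQ : n • (P - Q) = 0 := by rw [smul_sub, hP, hQ, sub_self]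
  exact sub_eq_zero.mp (eq_zero_of_redHom_eq_zero W A ℓ hgood hA hn hPQ h0)

end Fermat.Agent.S58.EC.Good.Setup
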