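/-
S58 / EC-Frob project, block [EC-G] (good reduction), part 4 = (G2): at a prime `ℓ` of good
reduction, a Frobenius element `σ` at a valuation subring `A | ℓ` acts on `W[p^k]` (`p` an odd
prime `≠ ℓ`) with trace `apOfModel W ℓ` and determinant `ℓ`.

The output of the heart (block EC-T: the Frobenius `φ` of the reduced curve over the residue
field satisfies `φ² - a₀ φ + ℓ = 0` and the kernel bounds) is taken as the hypothesis `hT`, in
the verbatim shape of EC-T's `exists_a0` / `CountAdapter.frob_relation_of_exists_a0`.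
-/
import Fermat.Agent.S58.EC.Good.Setup
import Fermat.Agent.S58.EC.Red.Equivariant
import Fermat.Agent.S58.EC.TorsionBasis
import Fermat.Agent.S58.EC.FrobCharpoly
import Fermat.Agent.S58.EC.CountAdapter

set_option autoImplicit false
set_option linter.unusedSectionVars false

namespace Fermat.Agent.S58.EC.Good.Frobenius

open WeierstrassCurve WeierstrassCurve.Affine WeierstrassCurve.Affine.Point
open Fermat.Agent.S58.EC.Red.Basic Fermat.Agent.S58.EC.Red.Add Fermat.Agent.S58.EC.Red.Kernel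
open Fermat.Agent.S58.EC.Red.Equivariant
open Fermat.Agent.S58.EC.Good.ResidueField Fermat.Agent.S58.EC.Good.Setup
open Fermat.Agent.S58.EC.TorsionFree Fermat.Agent.S58.EC.TorsionBasis
open Fermat.Agent.S58.EC.FrobLinear Fermat.Agent.S58.EC.FrobCharpoly
open Fermat.Agent.S58.EC.Count Fermat.Agent.S58.EC.CountAdapter

section General

variable (W : WeierstrassCurve ℤ) {L : Type*} [Field L] [Algebra ℚ L] [DecidableEq L]
  (A : ValuationSubring L) (ℓ : ℕ) [Fact ℓ.Prime]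
  [Algebra (ZMod ℓ) (IsLocalRing.ResidueField ↥A)] [DecidableEq (IsLocalRing.ResidueField ↥A)]

omit [DecidableEq L] in
/-- The discriminant of `WQ⁄L` is nonzero. -/
theorem Δ_ne_zero (hΔ : W.Δ ≠ 0) : ((WQ W)⁄L).Δ ≠ 0 := by
  change ((W.map (Int.castRingHom ℚ)).map (algebraMap ℚ L)).Δ ≠ 0
  rw [WeierstrassCurve.map_Δ, WeierstrassCurve.map_Δ]
  intro h
  have h2 := (map_eq_zero_iff _ (algebraMap ℚ L).injective).mp h
  rw [eq_intCast] at h2
  exact hΔ (by exact_mod_cast h2)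

omit [DecidableEq L] [DecidableEq (IsLocalRing.ResidueField ↥A)] in
/-- A prime `p ≠ ℓ` is nonzero in the residue field. -/
theorem natCast_residue_ne_zero {p : ℕ} (hp : p.Prime) (hpℓ : p ≠ ℓ) :
    ((p : ℕ) : IsLocalRing.ResidueField ↥A) ≠ 0 := by
  have : CharP (IsLocalRing.ResidueField ↥A) ℓ := charP_of_algebra
  rw [Ne, CharP.cast_eq_zero_iff (IsLocalRing.ResidueField ↥A) ℓ p,
    Nat.prime_dvd_prime_iff_eq (Fact.out : ℓ.Prime) hp]
  exact fun h => hpℓ h.symm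

variable [IsAlgClosed L] [IsAlgClosed (IsLocalRing.ResidueField ↥A)]

/-- **Lifting torsion**: every `p^k`-torsion point of the reduced curve is the reduction of a
`p^k`-torsion point (`p` odd prime `≠ ℓ`, good reduction): count `p^(2k)` on both sides. -/
theorem exists_lift_torsion (hgood : ¬ (ℓ : ℤ) ∣ W.Δ) (hA : A.LiesOverPrime ℓ) {p : ℕ}
    (hp : p.Prime) (hp2 : p ≠ 2) (hpℓ : p ≠ ℓ) (k : ℕ)
    (e : ((W.reductionMod ℓ)⁄(IsLocalRing.ResidueField ↥A)).Point) (he : (p ^ k) • e = 0) :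
    ∃ P : ((WQ W)⁄L).Point, (p ^ k) • P = 0 ∧ redHom W A ℓ hgood P = e := by
  have hΔ : W.Δ ≠ 0 := fun h => hgood (by rw [h]; exact dvd_zero _)
  have hΔL := Δ_ne_zero (L := L) W hΔ
  have hΔκ := Δ_red_ne_zero W A ℓ hgood
  have hpL : ((p : ℕ) : L) ≠ 0 := by
    have : CharZero L := charZero_of_injective_algebraMap (algebraMap ℚ L).injective
    exact_mod_cast hp.ne_zero
  have hpκ := natCast_residue_ne_zero A ℓ hp hpℓ
  have hnℓ : ¬ ℓ ∣ p ^ k := fun h =>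
    hpℓ ((Nat.prime_dvd_prime_iff_eq (Fact.out : ℓ.Prime) hp).mp
      ((Fact.out : ℓ.Prime).dvd_of_dvd_pow h)).symm
  have hc1 := card_torsionBy_prime_pow hΔL hp hp2 hpL k
  have hc2 := card_torsionBy_prime_pow hΔκ hp hp2 hpκ k
  have hfin1 : Finite (tor ((WQ W)⁄L).Point (p ^ k)) :=
    Nat.finite_of_card_ne_zero (by rw [hc1]; exact pow_ne_zero _ hp.ne_zero)
  have hfin2 : Finite (tor ((W.reductionMod ℓ)⁄(IsLocalRing.ResidueField ↥A)).Point (p ^ k)) :=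
    Nat.finite_of_card_ne_zero (by rw [hc2]; exact pow_ne_zero _ hp.ne_zero)
  let g : tor ((WQ W)⁄L).Point (p ^ k) →
      tor ((W.reductionMod ℓ)⁄(IsLocalRing.ResidueField ↥A)).Point (p ^ k) := fun x =>
    ⟨redHom W A ℓ hgood x, mem_tor.mpr (by rw [← map_zsmul, mem_tor.mp x.2, _root_.map_zero])⟩
  have hg : Function.Injective g := by
    intro x y hxy
    have h1 : redHom W A ℓ hgood x = redHom W A ℓ hgood y := congrArg Subtype.val hxy
    have hx : (p ^ k) • (x : ((WQ W)⁄L).Point) = 0 := by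
      rw [← natCast_zsmul]; exact mem_tor.mp x.2
    have hy : (p ^ k) • (y : ((WQ W)⁄L).Point) = 0 := by
      rw [← natCast_zsmul]; exact mem_tor.mp y.2
    exact Subtype.ext (redHom_injOn_torsion W A ℓ hgood hA hnℓ hx hy h1)
  have hbij : Function.Bijective g := by
    rw [Nat.bijective_iff_injective_and_card]
    exact ⟨hg, by rw [hc1, hc2]⟩
  obtain ⟨x, hx⟩ := hbij.2 ⟨e, mem_tor.mpr (by rw [natCast_zsmul]; exact he)⟩
  refine ⟨x, ?_, congrArg Subtype.val hx⟩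
  rw [← natCast_zsmul]
  exact mem_tor.mp x.2

/-- The output of the heart (block EC-T) for the reduced curve `W₀ = W.reductionMod ℓ` over `κ`,
in the verbatim shape of `CountAdapter.frob_relation_of_exists_a0`. -/
def HeartHyp (f : IsLocalRing.ResidueField ↥A →ₐ[ZMod ℓ] IsLocalRing.ResidueField ↥A) : Prop :=
  ∃ a0 : ℤ, a0 ^ 2 < 4 * ℓ ∧
    (∀ P : (EK (W.reductionMod ℓ) (IsLocalRing.ResidueField ↥A)).Point,
      frobPt (W.reductionMod ℓ) f (frobPt (W.reductionMod ℓ) f P)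
        - a0 • frobPt (W.reductionMod ℓ) f P + (ℓ : ℤ) • P = 0) ∧
    ∀ r s : ℤ, (r, s) ≠ (0, 0) →
      Finite ↥(AddMonoidHom.ker (r • AddMonoidHom.id
        (EK (W.reductionMod ℓ) (IsLocalRing.ResidueField ↥A)).Point
          + s • frobPt (W.reductionMod ℓ) f)) ∧
      (Nat.card ↥(AddMonoidHom.ker (r • AddMonoidHom.id
        (EK (W.reductionMod ℓ) (IsLocalRing.ResidueField ↥A)).Point
          + s • frobPt (W.reductionMod ℓ) f)) : ℤ) ≤ r ^ 2 + r * s * a0 + s ^ 2 * ℓ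

/-- **Equivariance of reduction** for a Frobenius element. -/
theorem redHom_smul_of_isFrobeniusAt (hgood : ¬ (ℓ : ℤ) ∣ W.Δ) {σ : L ≃ₐ[ℚ] L}
    (hσ : A.IsFrobeniusAt σ ℓ)
    (f : IsLocalRing.ResidueField ↥A →ₐ[ZMod ℓ] IsLocalRing.ResidueField ↥A)
    (hf : ∀ z, f z = z ^ ℓ) (P : ((WQ W)⁄L).Point) :
    redHom W A ℓ hgood (σ • P) = frobPt (W.reductionMod ℓ) f (redHom W A ℓ hgood P) := by
  have hind : Induces A (IsLocalRing.residue ↥A) σ f := by
    have h := induces_pow_of_isFrobeniusAt (F := ℚ) hσ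
    have hfun : (⇑f : _ → _) = fun x => x ^ ℓ := funext hf
    rw [hfun]
    exact h
  exact redFun_smul σ f hind P

/-- **(G2), general field form.** -/
theorem trace_det_of_isFrobeniusAt (hgood : ¬ (ℓ : ℤ) ∣ W.Δ) (hA : A.LiesOverPrime ℓ) {p : ℕ}
    (hp : p.Prime) (hp2 : p ≠ 2) (hpℓ : p ≠ ℓ) (k : ℕ) {σ : L ≃ₐ[ℚ] L}
    (hσ : A.IsFrobeniusAt σ ℓ)
    (f : IsLocalRing.ResidueField ↥A →ₐ[ZMod ℓ] IsLocalRing.ResidueField ↥A)
    (hf : ∀ z, f z = z ^ ℓ) (hT : HeartHyp W A ℓ f) :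
    LinearMap.trace (ZMod (p ^ k)) (Submodule.torsionBy ℤ ((WQ W)⁄L).Point ((p ^ k : ℕ) : ℤ))
        (galoisRepModuleEnd (K := L) ℚ (WQ W) (p ^ k) σ) = ((W.apOfModel ℓ : ℤ) : ZMod (p ^ k)) ∧
      LinearMap.det (galoisRepModuleEnd (K := L) ℚ (WQ W) (p ^ k) σ) =
        ((ℓ : ℕ) : ZMod (p ^ k)) := by
  have hΔ : W.Δ ≠ 0 := fun h => hgood (by rw [h]; exact dvd_zero _)
  have hΔL := Δ_ne_zero (L := L) W hΔ
  have hΔκ := Δ_red_ne_zero W A ℓ hgood
  have hΔ₀ : (W.reductionMod ℓ).Δ ≠ 0 := Δ_ne_zero_of_map _ hΔκ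
  have hpL : ((p : ℕ) : L) ≠ 0 := by
    have : CharZero L := charZero_of_injective_algebraMap (algebraMap ℚ L).injective
    exact_mod_cast hp.ne_zero
  have hpκ := natCast_residue_ne_zero A ℓ hp hpℓ
  have hnℓ : ¬ ℓ ∣ p ^ k := fun h =>
    hpℓ ((Nat.prime_dvd_prime_iff_eq (Fact.out : ℓ.Prime) hp).mp
      ((Fact.out : ℓ.Prime).dvd_of_dvd_pow h)).symm
  -- the heart, with `a0 = apOfModel`
  obtain ⟨a0, -, hI, hker⟩ := hT
  have ha0 : a0 = W.apOfModel ℓ :=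
    a0_eq_traceOfFrobenius_of_bound (W.reductionMod ℓ) f hΔ₀ hf a0 (fun r s h => (hker r s h).2)
  -- [EC-L] downstairs
  obtain ⟨e₁, e₂, hB, a, b, c, d, h₁, h₂, htr, hdet⟩ :=
    exists_isTorsionBasis_trace_det k (frobPt (W.reductionMod ℓ) f) a0 (ℓ : ℤ) hp hI
      (kb_finset_of_ker _ a0 (ℓ : ℤ) hker)
      (fun j => card_torsionBy_prime_pow hΔκ hp hp2 hpκ j)
  -- lift the basis
  obtain ⟨f₁, hf₁, hr₁⟩ := exists_lift_torsion W A ℓ hgood hA hp hp2 hpℓ k e₁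
    (by rw [← natCast_zsmul]; exact hB.left)
  obtain ⟨f₂, hf₂, hr₂⟩ := exists_lift_torsion W A ℓ hgood hA hp hp2 hpℓ k e₂
    (by rw [← natCast_zsmul]; exact hB.right)
  have hf₁' : ((p ^ k : ℕ) : ℤ) • f₁ = 0 := by rw [natCast_zsmul]; exact hf₁
  have hf₂' : ((p ^ k : ℕ) : ℤ) • f₂ = 0 := by rw [natCast_zsmul]; exact hf₂
  have hBL : IsTorsionBasis (p ^ k) f₁ f₂ := by
    refine IsTorsionBasis.of_indep (pow_pos hp.pos k) hf₁' hf₂' ?_ ?_
    · intro x y hxy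
      apply hB.indep
      have := congrArg (redHom W A ℓ hgood) hxy
      rw [map_add, map_zsmul, map_zsmul, hr₁, hr₂, _root_.map_zero] at this
      exact this
    · rw [card_torsionBy_prime_pow hΔL hp hp2 hpL k, ← pow_mul, mul_comm]
  -- the matrix of `σ`
  have hσtor : ∀ P : ((WQ W)⁄L).Point, (p ^ k) • P = 0 → (p ^ k) • (σ • P) = 0 := by
    intro P hP
    have : (p ^ k) • (σ • P) = σ • ((p ^ k) • P) := by
      rw [← natCast_zsmul, ← natCast_zsmul, algEquiv_smul_zsmul]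
    rw [this, hP]
    rfl
  have hm₁ : σ • f₁ = a • f₁ + c • f₂ := by
    refine redHom_injOn_torsion W A ℓ hgood hA hnℓ (hσtor f₁ hf₁) ?_ ?_
    · rw [smul_add, smul_comm, hf₁, smul_zero, smul_comm, hf₂, smul_zero, add_zero]
    · rw [redHom_smul_of_isFrobeniusAt W A ℓ hgood hσ f hf, hr₁, h₁, map_add, map_zsmul,
        map_zsmul, hr₁, hr₂]
  have hm₂ : σ • f₂ = b • f₁ + d • f₂ := by
    refine redHom_injOn_torsion W A ℓ hgood hA hnℓ (hσtor f₂ hf₂) ?_ ?_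
    · rw [smul_add, smul_comm, hf₁, smul_zero, smul_comm, hf₂, smul_zero, add_zero]
    · rw [redHom_smul_of_isFrobeniusAt W A ℓ hgood hσ f hf, hr₂, h₂, map_add, map_zsmul,
        map_zsmul, hr₁, hr₂]
  have hmat := toMatrix_basis_eq k (Point.map (W' := WQ W) σ.toAlgHom) hBL
    (galoisRepModuleEnd (K := L) ℚ (WQ W) (p ^ k) σ) (fun _ => rfl) hm₁ hm₂
  have hpk : (((p : ℤ) ^ k : ℤ) : ZMod (p ^ k)) = 0 := by
    have : ((p : ℤ) ^ k : ℤ) = ((p ^ k : ℕ) : ℤ) := by push_cast; rfl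
    rw [this, Int.cast_natCast, ZMod.natCast_self]
  constructor
  · rw [LinearMap.trace_eq_matrix_trace (ZMod (p ^ k)) hBL.basis, hmat, Matrix.trace_fin_two_of,
      ← ha0]
    obtain ⟨t, ht⟩ := htr
    have : a + d = a0 + (p : ℤ) ^ k * t := by linarith
    rw [← Int.cast_add, this, Int.cast_add, Int.cast_mul, hpk, zero_mul, add_zero]
  · rw [← LinearMap.det_toMatrix hBL.basis, hmat, Matrix.det_fin_two_of]
    obtain ⟨t, ht⟩ := hdet
    have : a * d - b * c = (ℓ : ℤ) + (p : ℤ) ^ k * t := by linarith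
    rw [← Int.cast_mul, ← Int.cast_mul, ← Int.cast_sub, this, Int.cast_add, Int.cast_mul, hpk,
      zero_mul, add_zero, Int.cast_natCast]

end General

/-! ### The final statements over `AlgebraicClosure ℚ` -/

/-- **The theorem of the heart (block EC-T)**, as a proposition: over an algebraically closed
field `κ ⊇ 𝔽_ℓ`, the Frobenius endomorphism `φ` of an elliptic curve `W₀` over `𝔽_ℓ` satisfies
`φ² - a₀ φ + ℓ = 0` for an integer `a₀` with `a₀² < 4ℓ`, and `|ker (r + s φ)| ≤ r² + r s a₀ + s² ℓ`.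
(Verbatim the shape announced by EC-T, consumed by `CountAdapter`.) -/
def HeartStatement : Prop :=
  ∀ (ℓ : ℕ) [Fact ℓ.Prime] (W₀ : WeierstrassCurve (ZMod ℓ)) (κ : Type) [Field κ]
    [Algebra (ZMod ℓ) κ] [IsAlgClosed κ] [DecidableEq κ],
    (W₀.map (algebraMap (ZMod ℓ) κ)).Δ ≠ 0 → ∀ f : κ →ₐ[ZMod ℓ] κ, (∀ z, f z = z ^ ℓ) →
    ∃ a0 : ℤ, a0 ^ 2 < 4 * ℓ ∧
      (∀ P : (EK W₀ κ).Point,
        frobPt W₀ f (frobPt W₀ f P) - a0 • frobPt W₀ f P + (ℓ : ℤ) • P = 0) ∧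
      ∀ r s : ℤ, (r, s) ≠ (0, 0) →
        Finite ↥(AddMonoidHom.ker (r • AddMonoidHom.id (EK W₀ κ).Point + s • frobPt W₀ f)) ∧
        (Nat.card ↥(AddMonoidHom.ker (r • AddMonoidHom.id (EK W₀ κ).Point + s • frobPt W₀ f)) : ℤ)
          ≤ r ^ 2 + r * s * a0 + s ^ 2 * ℓ

/-- **(G2), frozen consumer shape (I-G)**, conditional on the heart: at a prime `ℓ` of good
reduction, a Frobenius element at `A | ℓ` acts on `W(ℚ̄)[p^k]` (`p` odd prime `≠ ℓ`) with trace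
`apOfModel W ℓ` and determinant `ℓ`. -/
theorem trace_det_frobenius (hT : HeartStatement) (W : WeierstrassCurve ℤ) {ℓ : ℕ}
    (hℓ : ℓ.Prime) (hgood : ¬ (ℓ : ℤ) ∣ W.Δ) (A : ValuationSubring (AlgebraicClosure ℚ))
    (hA : A.LiesOverPrime ℓ) {p : ℕ} (hp : p.Prime) (hp2 : p ≠ 2) (hpℓ : p ≠ ℓ) (k : ℕ)
    (σ : AlgebraicClosure ℚ ≃ₐ[ℚ] AlgebraicClosure ℚ) (hσ : A.IsFrobeniusAt σ ℓ) :
    LinearMap.trace (ZMod (p ^ k))
        (Submodule.torsionBy ℤ ((WQ W)⁄(AlgebraicClosure ℚ)).Point ((p ^ k : ℕ) : ℤ))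
        (galoisRepModuleEnd (K := AlgebraicClosure ℚ) ℚ (WQ W) (p ^ k) σ) =
          ((W.apOfModel ℓ : ℤ) : ZMod (p ^ k)) ∧
      LinearMap.det (galoisRepModuleEnd (K := AlgebraicClosure ℚ) ℚ (WQ W) (p ^ k) σ) =
        ((ℓ : ℕ) : ZMod (p ^ k)) := by
  classical
  have : Fact ℓ.Prime := ⟨hℓ⟩
  have : CharP (IsLocalRing.ResidueField ↥A) ℓ := charP_residueField A hℓ hA
  let _ : Algebra (ZMod ℓ) (IsLocalRing.ResidueField ↥A) := ZMod.algebra _ ℓ
  have : IsAlgClosed (IsLocalRing.ResidueField ↥A) := isAlgClosed_residueField A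
  obtain ⟨f, hf⟩ := exists_frobAlgHom ℓ (IsLocalRing.ResidueField ↥A)
  have hΔκ := Δ_red_ne_zero W A ℓ hgood
  exact trace_det_of_isFrobeniusAt W A ℓ hgood hA hp hp2 hpℓ k hσ f hf
    (hT ℓ (W.reductionMod ℓ) (IsLocalRing.ResidueField ↥A) hΔκ f hf)

/-- The corresponding characteristic polynomial of the matrix in any basis. -/
theorem charpoly_frobenius (hT : HeartStatement) (W : WeierstrassCurve ℤ) {ℓ : ℕ}
    (hℓ : ℓ.Prime) (hgood : ¬ (ℓ : ℤ) ∣ W.Δ) (A : ValuationSubring (AlgebraicClosure ℚ))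
    (hA : A.LiesOverPrime ℓ) {p : ℕ} (hp : p.Prime) (hp2 : p ≠ 2) (hpℓ : p ≠ ℓ) (k : ℕ)
    (σ : AlgebraicClosure ℚ ≃ₐ[ℚ] AlgebraicClosure ℚ) (hσ : A.IsFrobeniusAt σ ℓ)
    (b : Module.Basis (Fin 2) (ZMod (p ^ k))
      (Submodule.torsionBy ℤ ((WQ W)⁄(AlgebraicClosure ℚ)).Point ((p ^ k : ℕ) : ℤ))) :
    (LinearMap.toMatrix b b
        (galoisRepModuleEnd (K := AlgebraicClosure ℚ) ℚ (WQ W) (p ^ k) σ)).charpoly =
      Polynomial.X ^ 2 - Polynomial.C ((W.apOfModel ℓ : ℤ) : ZMod (p ^ k)) * Polynomial.X +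
        Polynomial.C ((ℓ : ℕ) : ZMod (p ^ k)) := by
  obtain ⟨htr, hdet⟩ := trace_det_frobenius hT W hℓ hgood A hA hp hp2 hpℓ k σ hσ
  rcases subsingleton_or_nontrivial (ZMod (p ^ k)) with hs | hn
  · exact Subsingleton.elim _ _
  · rw [Matrix.charpoly_fin_two, ← LinearMap.trace_eq_matrix_trace (ZMod (p ^ k)) b, htr,
      LinearMap.det_toMatrix b, hdet]

end Fermat.Agent.S58.EC.Good.Frobenius
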