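/-
S58 / EC-Frob project, block [EC-G] (good reduction), part 3 = (G1): at a prime `ℓ` of good
reduction, inertia acts trivially on the `n`-torsion for every `n` prime to `ℓ`.
-/
import Fermat.Agent.S58.EC.Good.Setup
import Fermat.Agent.S58.EC.Red.Equivariant

set_option autoImplicit false

namespace Fermat.Agent.S58.EC.Good.Inertia

open WeierstrassCurve WeierstrassCurve.Affine WeierstrassCurve.Affine.Point
open Fermat.Agent.S58.EC.Red.Basic Fermat.Agent.S58.EC.Red.Add Fermat.Agent.S58.EC.Red.Kernel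
open Fermat.Agent.S58.EC.Red.Equivariant
open Fermat.Agent.S58.EC.Good.ResidueField Fermat.Agent.S58.EC.Good.Setup

/-- **(G1), pointwise, general field**: inertia at a valuation subring over a prime `ℓ` of good
reduction fixes every point killed by `n`, `ℓ ∤ n`. -/
theorem smul_eq_self_of_mem_inertia (W : WeierstrassCurve ℤ) {L : Type*} [Field L] [Algebra ℚ L]
    [DecidableEq L] (A : ValuationSubring L) {ℓ : ℕ} (hℓ : ℓ.Prime) (hgood : ¬ (ℓ : ℤ) ∣ W.Δ)
    (hA : A.LiesOverPrime ℓ) {n : ℕ} (hn : ¬ ℓ ∣ n) {τ : L ≃ₐ[ℚ] L}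
    (hτ : τ ∈ A.inertiaSubgroupIn ℚ) {P : ((WQ W)⁄L).Point} (hP : n • P = 0) : τ • P = P := by
  classical
  have : Fact ℓ.Prime := ⟨hℓ⟩
  have : CharP (IsLocalRing.ResidueField ↥A) ℓ := charP_residueField A hℓ hA
  let _ : Algebra (ZMod ℓ) (IsLocalRing.ResidueField ↥A) := ZMod.algebra _ ℓ
  have hind : Induces A (IsLocalRing.residue ↥A) τ id :=
    induces_id_of_mem_inertia killsMax_residue hτ
  have hred : redHom W A ℓ hgood (τ • P - P) = 0 := by
    rw [map_sub, redHom_apply, redHom_apply, redFun_smul_of_id τ hind P, sub_self]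
  have hn' : n • (τ • P - P) = 0 := by
    rw [smul_sub, hP, sub_zero]
    have : n • (τ • P) = τ • (n • P) := by
      rw [← natCast_zsmul, ← natCast_zsmul, algEquiv_smul_zsmul]
    rw [this, hP]
    rfl
  exact sub_eq_zero.mp (eq_zero_of_redHom_eq_zero W A ℓ hgood hA hn hn' hred)

/-- **(G1)**, in the frozen consumer shape: the representation on `n`-torsion is trivial on
inertia at `ℓ`. -/
theorem galoisRepModuleEnd_eq_one (W : WeierstrassCurve ℤ) {L : Type*} [Field L] [Algebra ℚ L]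
    [DecidableEq L] (A : ValuationSubring L) {ℓ : ℕ} (hℓ : ℓ.Prime) (hgood : ¬ (ℓ : ℤ) ∣ W.Δ)
    (hA : A.LiesOverPrime ℓ) {n : ℕ} (hn : ¬ ℓ ∣ n) {τ : L ≃ₐ[ℚ] L}
    (hτ : τ ∈ A.inertiaSubgroupIn ℚ) :
    galoisRepModuleEnd (K := L) ℚ (WQ W) n τ = 1 := by
  ext x
  rw [galoisRepModuleEnd_apply]
  change ((τ • x : Submodule.torsionBy ℤ ((WQ W)⁄L).Point n) : ((WQ W)⁄L).Point) = x
  have hx : n • (x : ((WQ W)⁄L).Point) = 0 := by
    have := x.2
    rw [Submodule.mem_torsionBy_iff, natCast_zsmul] at this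
    exact this
  exact smul_eq_self_of_mem_inertia W A hℓ hgood hA hn hτ hx

/-- **(G1)** for `AlgebraicClosure ℚ`: the prelude's `GaloisRepUnramifiedAt` at every prime of
good reduction not dividing `n`. -/
theorem galoisRepUnramifiedAt (W : WeierstrassCurve ℤ) {ℓ : ℕ} (hℓ : ℓ.Prime)
    (hgood : ¬ (ℓ : ℤ) ∣ W.Δ) {n : ℕ} (hn : ¬ ℓ ∣ n) :
    GaloisRepUnramifiedAt ℚ (AlgebraicClosure ℚ) (WQ W) n ℓ := by
  intro A hA τ hτ x
  apply Subtype.ext
  have hx : n • (x : ((WQ W)⁄(AlgebraicClosure ℚ)).Point) = 0 := by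
    have := x.2
    rw [Submodule.mem_torsionBy_iff, natCast_zsmul] at this
    exact this
  exact smul_eq_self_of_mem_inertia W A hℓ hgood hA hn hτ hx

end Fermat.Agent.S58.EC.Good.Inertia
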