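/-
S58 / EC-Frob project, block [EC-G], final: with the heart (block EC-T, `FrobFinal.ectOutput`)
on main, (G1) and (G2) are unconditional, in the frozen consumer shapes
`CompareHypOfEC.GoodInertiaHyp` / `CompareHypOfEC.GoodFrobHyp`.
-/
import Fermat.Agent.S58.EC.Good.Inertia
import Fermat.Agent.S58.EC.Good.Frobenius
import Fermat.Agent.S58.EC.FrobFinal
import Fermat.Agent.S58.Form.CompareHypOfEC

set_option autoImplicit false

namespace Fermat.Agent.S58.EC.Good.Final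

open WeierstrassCurve WeierstrassCurve.Affine WeierstrassCurve.Affine.Point
open Fermat.Agent.S58.EC.Good.Setup Fermat.Agent.S58.EC.Good.Frobenius
open Fermat.Agent.S58.Form.CompareHypOfEC

/-- **The heart**: block EC-T proves `HeartStatement`. -/
theorem heart : HeartStatement := fun _ _ W₀ _ _ _ _ _ hΔ f hf =>
  Fermat.Agent.S58.EC.FrobFinal.ectOutput W₀ f
    (Fermat.Agent.S58.EC.CountAdapter.Δ_ne_zero_of_map W₀ hΔ) hf

/-- **(G2), unconditional**: trace and determinant of a Frobenius element at a prime of good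
reduction on `W(ℚ̄)[p^k]`. -/
theorem trace_det_frobenius (W : WeierstrassCurve ℤ) {ℓ : ℕ}
    (hℓ : ℓ.Prime) (hgood : ¬ (ℓ : ℤ) ∣ W.Δ) (A : ValuationSubring (AlgebraicClosure ℚ))
    (hA : A.LiesOverPrime ℓ) {p : ℕ} (hp : p.Prime) (hp2 : p ≠ 2) (hpℓ : p ≠ ℓ) (k : ℕ)
    (σ : AlgebraicClosure ℚ ≃ₐ[ℚ] AlgebraicClosure ℚ) (hσ : A.IsFrobeniusAt σ ℓ) :
    LinearMap.trace (ZMod (p ^ k))
        (Submodule.torsionBy ℤ ((WQ W)⁄(AlgebraicClosure ℚ)).Point ((p ^ k : ℕ) : ℤ))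
        (galoisRepModuleEnd (K := AlgebraicClosure ℚ) ℚ (WQ W) (p ^ k) σ) =
          ((W.apOfModel ℓ : ℤ) : ZMod (p ^ k)) ∧
      LinearMap.det (galoisRepModuleEnd (K := AlgebraicClosure ℚ) ℚ (WQ W) (p ^ k) σ) =
        ((ℓ : ℕ) : ZMod (p ^ k)) :=
  Frobenius.trace_det_frobenius heart W hℓ hgood A hA hp hp2 hpℓ k σ hσ

/-- **(G2), unconditional, characteristic polynomial in any basis.** -/
theorem charpoly_frobenius (W : WeierstrassCurve ℤ) {ℓ : ℕ}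
    (hℓ : ℓ.Prime) (hgood : ¬ (ℓ : ℤ) ∣ W.Δ) (A : ValuationSubring (AlgebraicClosure ℚ))
    (hA : A.LiesOverPrime ℓ) {p : ℕ} (hp : p.Prime) (hp2 : p ≠ 2) (hpℓ : p ≠ ℓ) (k : ℕ)
    (σ : AlgebraicClosure ℚ ≃ₐ[ℚ] AlgebraicClosure ℚ) (hσ : A.IsFrobeniusAt σ ℓ)
    (b : Module.Basis (Fin 2) (ZMod (p ^ k))
      (Submodule.torsionBy ℤ ((WQ W)⁄(AlgebraicClosure ℚ)).Point ((p ^ k : ℕ) : ℤ))) :
    (LinearMap.toMatrix b b
        (galoisRepModuleEnd (K := AlgebraicClosure ℚ) ℚ (WQ W) (p ^ k) σ)).charpoly =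
      Polynomial.X ^ 2 - Polynomial.C ((W.apOfModel ℓ : ℤ) : ZMod (p ^ k)) * Polynomial.X +
        Polynomial.C ((ℓ : ℕ) : ZMod (p ^ k)) :=
  Frobenius.charpoly_frobenius heart W hℓ hgood A hA hp hp2 hpℓ k σ hσ b

/-- (I-G)(G1) in the shape consumed by `CompareHypOfEC.compareHyp_of_ec`. -/
theorem goodInertiaHyp (W : WeierstrassCurve ℤ) : GoodInertiaHyp W :=
  fun _ hℓ hgood A hA _ hn _ hτ =>
    Fermat.Agent.S58.EC.Good.Inertia.galoisRepModuleEnd_eq_one W A hℓ hgood hA hn hτ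

/-- (I-G)(G2) in the shape consumed by `CompareHypOfEC.compareHyp_of_ec`. -/
theorem goodFrobHyp (W : WeierstrassCurve ℤ) : GoodFrobHyp W :=
  fun _ hℓ hgood A hA _ hp hp2 hpℓ k σ hσ =>
    trace_det_frobenius W hℓ hgood A hA hp hp2 hpℓ k σ hσ

end Fermat.Agent.S58.EC.Good.Final
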