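/-
S58 / EC-Frob (helper10): **`Good.Frobenius.HeartStatement` is a theorem**, hence (G2) of block
EC-G (trace and determinant of Frobenius on `W(ℚ̄)[p ^ k]` at a prime of good reduction) holds
with no hypothesis left.
-/
import Mathlib
import Fermat.Agent.S58.EC.FrobFinal
import Fermat.Agent.S58.EC.Good.Frobenius

set_option autoImplicit false

namespace Fermat.Agent.S58.EC.Good.Heart

open WeierstrassCurve WeierstrassCurve.Affine WeierstrassCurve.Affine.Point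
open Fermat.Agent.S58.EC.Good.Setup Fermat.Agent.S58.EC.Good.Frobenius

/-- **The heart** (block EC-T, `FrobFinal.ectOutput`) in the shape consumed by EC-G. -/
theorem heart : HeartStatement := fun _ℓ _ W₀ _κ _ _ _ _ hΔ f hf =>
  Fermat.Agent.S58.EC.FrobFinal.ectOutput W₀ f
    (Fermat.Agent.S58.EC.CountAdapter.Δ_ne_zero_of_map W₀ hΔ) hf

/-- **(G2), unconditional**: at a prime `ℓ` of good reduction, a Frobenius element at `A | ℓ` acts
on `W(ℚ̄)[p^k]` (`p` odd prime `≠ ℓ`) with trace `apOfModel W ℓ` and determinant `ℓ`. -/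
theorem trace_det_frobenius (W : WeierstrassCurve ℤ) {ℓ : ℕ}
    (hℓ : ℓ.Prime) (hgood : ¬ (ℓ : ℤ) ∣ W.Δ) (A : ValuationSubring (AlgebraicClosure ℚ))
    (hA : A.LiesOverPrime ℓ) {p : ℕ} (hp : p.Prime) (hp2 : p ≠ 2) (hpℓ : p ≠ ℓ) (k : ℕ)
    (σ : AlgebraicClosure ℚ ≃ₐ[ℚ] AlgebraicClosure ℚ) (hσ : A.IsFrobeniusAt σ ℓ) :
    LinearMap.trace (ZMod (p ^ k))
        (Submodule.torsionBy ℤ ((WQ W)⁄(AlgebraicClosure ℚ)).Point ((p ^ k : ℕ) : ℤ))
        (galoisRepModuleEnd (K := AlgebraicClosure ℚ) ℚ (WQ W) (p ^ k) σ) =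
          ((W.apOfModel ℓ : ℤ) : ZMod (p ^ k)) ∧
      LinearMap.det (galoisRepModuleEnd (K := AlgebraicClosure ℚ) ℚ (WQ W) (p ^ k) σ) =
        ((ℓ : ℕ) : ZMod (p ^ k)) :=
  Frobenius.trace_det_frobenius heart W hℓ hgood A hA hp hp2 hpℓ k σ hσ

/-- **(G2), unconditional, charpoly form** in any basis. -/
theorem charpoly_frobenius (W : WeierstrassCurve ℤ) {ℓ : ℕ}
    (hℓ : ℓ.Prime) (hgood : ¬ (ℓ : ℤ) ∣ W.Δ) (A : ValuationSubring (AlgebraicClosure ℚ))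
    (hA : A.LiesOverPrime ℓ) {p : ℕ} (hp : p.Prime) (hp2 : p ≠ 2) (hpℓ : p ≠ ℓ) (k : ℕ)
    (σ : AlgebraicClosure ℚ ≃ₐ[ℚ] AlgebraicClosure ℚ) (hσ : A.IsFrobeniusAt σ ℓ)
    (b : Module.Basis (Fin 2) (ZMod (p ^ k))
      (Submodule.torsionBy ℤ ((WQ W)⁄(AlgebraicClosure ℚ)).Point ((p ^ k : ℕ) : ℤ))) :
    (LinearMap.toMatrix b b
        (galoisRepModuleEnd (K := AlgebraicClosure ℚ) ℚ (WQ W) (p ^ k) σ)).charpoly =
      Polynomial.X ^ 2 - Polynomial.C ((W.apOfModel ℓ : ℤ) : ZMod (p ^ k)) * Polynomial.X +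
        Polynomial.C ((ℓ : ℕ) : ZMod (p ^ k)) :=
  Frobenius.charpoly_frobenius heart W hℓ hgood A hA hp hp2 hpℓ k σ hσ b

end Fermat.Agent.S58.EC.Good.Heart
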