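/-
S58 / EC-Frob project: the EC-side interface hypotheses of `LevelMatchTop`, all UNCONDITIONAL
(`W.Δ ≠ 0` only), assembled from block EC-G (`Good.Final`), EC-DET (`DetCyclo`), EC-U
(`Unip.Inertia`).

* `detFrobHyp W p n` (`n = p^k`): determinant of Frobenius at good primes, `DetCyclo.DetFrobHyp`;
* `multInertiaHyp W hΔ : CompareHypOfEC.MultInertiaHyp W`;
* `det_eq_cycloChar W p hΔ hp2` : `det (σ | W[p]) = χ_cyc(σ)` (the `hdetcyc` of `LevelMatchTop`).
-/
import Fermat.Agent.S58.EC.Good.Final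
import Fermat.Agent.S58.EC.DetCyclo
import Fermat.Agent.S58.EC.Unip.Inertia

set_option autoImplicit false

namespace Fermat.Agent.S58.EC.Good.Providers

open WeierstrassCurve WeierstrassCurve.Affine WeierstrassCurve.Affine.Point
open Fermat.Agent.S58.Form.CompareHypOfEC

/-- Determinant of Frobenius at the good primes, in the shape consumed by `DetCyclo`. -/
theorem detFrobHyp (W : WeierstrassCurve ℤ) (p : ℕ) [Fact p.Prime] (hp2 : p ≠ 2) (k : ℕ) :
    Fermat.Agent.S58.EC.DetCyclo.DetFrobHyp W p (p ^ k) :=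
  fun _ hl hlp hgood A hA φ hφ =>
    (Fermat.Agent.S58.EC.Good.Final.trace_det_frobenius W hl hgood A hA (Fact.out : p.Prime) hp2
      (Ne.symm hlp) k φ hφ).2

/-- **`det (σ | W[p]) = χ_cyc(σ)`**, unconditional. -/
theorem det_eq_cycloChar (W : WeierstrassCurve ℤ) (p : ℕ) [Fact p.Prime] (hΔ : W.Δ ≠ 0)
    (hp2 : p ≠ 2) (σ : AlgebraicClosure ℚ ≃ₐ[ℚ] AlgebraicClosure ℚ) :
    LinearMap.det (galoisRepModuleEnd (K := AlgebraicClosure ℚ) ℚ
        (W.map (Int.castRingHom ℚ)) p σ) = ((ExtCitation.cycloChar p σ : (ZMod p)ˣ) : ZMod p) :=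
  Fermat.Agent.S58.EC.DetCyclo.det_eq_cycloChar_of_model' W p hΔ hp2 (detFrobHyp W p hp2 1) σ

/-- **(I-U)**, unconditional: inertia at a multiplicative prime has trace `2` and determinant `1`
on `W[p^k]`. -/
theorem multInertiaHyp (W : WeierstrassCurve ℤ) (hΔ : W.Δ ≠ 0) : MultInertiaHyp W :=
  fun _ hq hqΔ hc4 p hp hp2 hpq k _ hA _ hτ =>
    haveI : Fact p.Prime := ⟨hp⟩
    Fermat.Agent.S58.EC.Unip.Inertia.trace_det_inertia W hΔ hq hqΔ hc4 hp hp2 hpq k
      (detFrobHyp W p hp2 k) hA hτ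

end Fermat.Agent.S58.EC.Good.Providers
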